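/-
P-FF row 620 (FF-G2'), helper37: the ECHELON LEMMA (Mathlib only).

A finite-dimensional subspace `V` of a vector space `E` equipped with a jointly injective
family of linear functionals `φ x` has a finite set `S` of "pivots" and vectors `e j ∈ V`
(`j ∈ S`) with `φ i (e j) = δ_ij`, such that an element of `V` killed by all pivots is zero.
Consequences: uniqueness (hence invariance under every group of semilinear automorphisms which
preserves `V` and is compatible with the functionals), expansion, linear independence.
-/
import Mathlib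

set_option autoImplicit false

namespace Fermat.Agent.H37.FF

/-- **Echelon lemma.** -/
theorem exists_echelon {L E X : Type*} [Field L] [AddCommGroup E] [Module L E]
    [DecidableEq X]
    (φ : X → E →ₗ[L] L) (hφ : ∀ f : E, (∀ x, φ x f = 0) → f = 0)
    (V : Submodule L E) [FiniteDimensional L V] :
    ∃ (S : Finset X) (e : X → E), (∀ j ∈ S, e j ∈ V) ∧
      (∀ i ∈ S, ∀ j ∈ S, φ i (e j) = if i = j then 1 else 0) ∧
      (∀ f ∈ V, (∀ i ∈ S, φ i f = 0) → f = 0) := by
  induction h : Module.finrank L V using Nat.strong_induction_on generalizing V with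
  | _ d ih =>
    by_cases hV : V = ⊥
    · subst hV
      exact ⟨∅, fun _ => 0, by simp, by simp, fun f hf _ => (Submodule.mem_bot L).1 hf⟩
    · obtain ⟨f, hfV, hf0⟩ := Submodule.exists_mem_ne_zero_of_ne_bot hV
      obtain ⟨x, hx⟩ : ∃ x, φ x f ≠ 0 := by
        by_contra hc
        push Not at hc
        exact hf0 (hφ f hc)
      set V' : Submodule L E := V ⊓ LinearMap.ker (φ x) with hV'
      have hle : V' ≤ V := inf_le_left
      have hlt : V' < V := by
        refine lt_of_le_of_ne hle fun heq => ?_
        have : f ∈ V' := heq ▸ hfV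
        exact hx this.2
      have : FiniteDimensional L V' := Submodule.finiteDimensional_of_le hle
      have hd : Module.finrank L V' < d := h ▸ Submodule.finrank_lt_finrank_of_lt hlt
      obtain ⟨S', e', he'V, hδ, huniq⟩ := ih _ hd V' rfl
      have hker : ∀ j ∈ S', φ x (e' j) = 0 := fun j hj => (he'V j hj).2
      have hxS' : x ∉ S' := fun hx' => by
        have h1 := hδ x hx' x hx'
        rw [if_pos rfl, hker x hx'] at h1
        exact zero_ne_one h1
      obtain ⟨f₀, hf₀V, hf₀x⟩ : ∃ f₀ ∈ V, φ x f₀ = 1 :=
        ⟨(φ x f)⁻¹ • f, V.smul_mem _ hfV, by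
          rw [map_smul, smul_eq_mul, inv_mul_cancel₀ hx]⟩
      obtain ⟨e₀, he₀⟩ : ∃ e₀ : E, e₀ = f₀ - ∑ i ∈ S', φ i f₀ • e' i := ⟨_, rfl⟩
      have he₀V : e₀ ∈ V := by
        rw [he₀]
        exact V.sub_mem hf₀V (V.sum_mem fun i hi => V.smul_mem _ (hle (he'V i hi)))
      have he₀x : φ x e₀ = 1 := by
        rw [he₀, map_sub, map_sum, hf₀x]
        rw [Finset.sum_eq_zero, sub_zero]
        intro i hi
        rw [map_smul, hker i hi, smul_zero]
      have he₀i : ∀ i ∈ S', φ i e₀ = 0 := by
        intro i hi
        rw [he₀, map_sub, map_sum, Finset.sum_eq_single i]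
        · rw [map_smul, hδ i hi i hi, if_pos rfl, smul_eq_mul, mul_one, sub_self]
        · intro j hj hji
          rw [map_smul, hδ i hi j hj, if_neg (Ne.symm hji), smul_zero]
        · intro hi'
          exact absurd hi hi'
      refine ⟨insert x S', Function.update e' x e₀, ?_, ?_, ?_⟩
      · intro j hj
        rcases Finset.mem_insert.mp hj with hjx | hjS
        · rw [hjx, Function.update_self]
          exact he₀V
        · have hjx : j ≠ x := fun h => hxS' (h ▸ hjS)
          rw [Function.update_of_ne hjx]
          exact hle (he'V j hjS)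
      · intro i hi j hj
        rcases Finset.mem_insert.mp hj with hjx | hjS
        · rw [hjx, Function.update_self]
          rcases Finset.mem_insert.mp hi with hix | hiS
          · rw [hix, if_pos rfl, he₀x]
          · have hij : i ≠ x := fun h => hxS' (h ▸ hiS)
            rw [if_neg hij, he₀i i hiS]
        · have hjx : j ≠ x := fun h => hxS' (h ▸ hjS)
          rw [Function.update_of_ne hjx]
          rcases Finset.mem_insert.mp hi with hix | hiS
          · rw [hix, if_neg (Ne.symm hjx), hker j hjS]
          · exact hδ i hiS j hjS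
      · intro g hgV hg
        have hgx : φ x g = 0 := hg x (Finset.mem_insert_self _ _)
        exact huniq g ⟨hgV, hgx⟩ fun i hi => hg i (Finset.mem_insert_of_mem hi)

/-- Expansion in an echelon family. -/
theorem echelon_expand {L E X : Type*} [Field L] [AddCommGroup E] [Module L E]
    [DecidableEq X]
    (φ : X → E →ₗ[L] L) (V : Submodule L E) (S : Finset X) (e : X → E)
    (heV : ∀ j ∈ S, e j ∈ V)
    (hδ : ∀ i ∈ S, ∀ j ∈ S, φ i (e j) = if i = j then 1 else 0)
    (huniq : ∀ f ∈ V, (∀ i ∈ S, φ i f = 0) → f = 0) (f : E) (hf : f ∈ V) :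
    f = ∑ j ∈ S, φ j f • e j := by
  have h : f - ∑ j ∈ S, φ j f • e j = 0 := by
    refine huniq _ (V.sub_mem hf (V.sum_mem fun j hj => V.smul_mem _ (heV j hj))) fun i hi => ?_
    rw [map_sub, map_sum, Finset.sum_eq_single i]
    · rw [map_smul, hδ i hi i hi, if_pos rfl, smul_eq_mul, mul_one, sub_self]
    · intro j hj hji
      rw [map_smul, hδ i hi j hj, if_neg (Ne.symm hji), smul_zero]
    · intro hi'
      exact absurd hi hi'
  exact sub_eq_zero.mp h

/-- An echelon family is linearly independent. -/
theorem echelon_linearIndependent {L E X : Type*} [Field L] [AddCommGroup E] [Module L E]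
    [DecidableEq X]
    (φ : X → E →ₗ[L] L) (S : Finset X) (e : X → E)
    (hδ : ∀ i ∈ S, ∀ j ∈ S, φ i (e j) = if i = j then 1 else 0) :
    LinearIndependent L (fun j : S => e (j : X)) := by
  rw [Fintype.linearIndependent_iff]
  intro c hc i
  have h1 := congrArg (φ (i : X)) hc
  rw [map_sum, map_zero, Finset.sum_eq_single i] at h1
  · rw [map_smul, hδ i i.2 i i.2, if_pos rfl, smul_eq_mul, mul_one] at h1
    exact h1
  · intro j _ hji
    have : (i : X) ≠ (j : X) := fun h => hji (Subtype.ext h.symm)
    rw [map_smul, hδ i i.2 j j.2, if_neg this, smul_zero]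
  · intro hi
    exact absurd (Finset.mem_univ i) hi

/-- The number of pivots is the dimension. -/
theorem echelon_card {L E X : Type*} [Field L] [AddCommGroup E] [Module L E]
    [DecidableEq X]
    (φ : X → E →ₗ[L] L) (V : Submodule L E) [FiniteDimensional L V] (S : Finset X) (e : X → E)
    (heV : ∀ j ∈ S, e j ∈ V)
    (hδ : ∀ i ∈ S, ∀ j ∈ S, φ i (e j) = if i = j then 1 else 0)
    (huniq : ∀ f ∈ V, (∀ i ∈ S, φ i f = 0) → f = 0) :
    S.card = Module.finrank L V := by
  have hli := echelon_linearIndependent φ S e hδ
  have hspan : Submodule.span L (Set.range (fun j : S => e (j : X))) = V := by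
    apply le_antisymm
    · refine Submodule.span_le.mpr ?_
      rintro _ ⟨j, rfl⟩
      exact heV j j.2
    · intro f hf
      rw [echelon_expand φ V S e heV hδ huniq f hf]
      refine Submodule.sum_mem _ fun j hj => Submodule.smul_mem _ _ ?_
      exact Submodule.subset_span ⟨⟨j, hj⟩, rfl⟩
  have h1 := finrank_span_eq_card hli
  rw [hspan, Fintype.card_coe] at h1
  exact h1.symm

end Fermat.Agent.H37.FF
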