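/-
P-FF row 620 (FF-G2' UnrLifting), helper37: INTERFACES of the three independent sub-blocks.

Notation: `Qb = ℚ̄`, `A` a valuation subring of `ℚ̄`, `I = A.inertiaSubgroupIn ℚ`,
`K = ℚ̄^I`, `R = unrInt A = A ∩ K`, `k` the residue field of `A`.

* `UnrResidueSurjStatement`  (620-S): `R → k` is onto.
* `FixedDescentStatement`    (620-D): an element of `F_ℚ̄ = laurentBaseChange ℚ̄ F₀` whose
  `q`-expansion is fixed (coefficientwise) by a subgroup `H` of `Gal(ℚ̄/ℚ)` comes from
  `F_K = laurentBaseChange K F₀`, `K = ℚ̄^H`.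
* `RatPivotStatement`        (620-P): helper18's pivot lemma `Fermat.Agent.H18.rv_pivot` with
  coefficients in a subfield.
-/
import Mathlib
import Fermat.Prelude.Def_ModularCurve_ArithmeticGalois
import Fermat.Agent.H18.RedPivot
import Fermat.Agent.H72.FF.Interfaces

set_option autoImplicit false

noncomputable section

open ModularCurve

namespace Fermat.Agent.H37.FF

open Fermat.Agent.H72.FF Fermat.Agent.H18

/-- **620-S.** The unramified integers `R = A ∩ ℚ̄^I` surject onto the residue field of `A`. -/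
def UnrResidueSurjStatement : Prop :=
  ∀ (ℓ : ℕ) (A : ValuationSubring Qb), ℓ.Prime → A.LiesOverPrime ℓ →
    ∀ x : IsLocalRing.ResidueField A,
      ∃ c : A, (c : Qb) ∈ unrInt A ∧ IsLocalRing.residue A c = x

/-- **620-D.** Fixed-field descent for the function fields `laurentBaseChange _ F₀`. -/
def FixedDescentStatement : Prop :=
  ∀ (F₀ : IntermediateField ℚ (LaurentSeries ℚ)) (H : Subgroup (Qb ≃ₐ[ℚ] Qb))
    (f : LaurentSeries Qb),
    f ∈ laurentBaseChange Qb F₀ →
    (∀ σ ∈ H, coeffMap ((σ : Qb ≃ₐ[ℚ] Qb) : Qb →+* Qb) f = f) →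
    ∃ f₁ : LaurentSeries ↥(IntermediateField.fixedField H),
      f₁ ∈ laurentBaseChange ↥(IntermediateField.fixedField H) F₀ ∧
      coeffMap (algebraMap ↥(IntermediateField.fixedField H) Qb) f₁ = f

/-- **620-P.** The pivot lemma with coefficients in a subfield `K` of `L`: if the `U i` and `G`
have their coefficients in `K`, the correction constants can be chosen in `K`. -/
def RatPivotStatement : Prop :=
  ∀ (L : Type) [Field L] (A : ValuationSubring L) (k : Type) [Field k] (π : A →+* k)
    (K : Subfield L), (∀ a : A, π a = 0 ↔ ¬ IsUnit a) →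
    ∀ (j : ℕ) (U : Fin j → LaurentSeries A), (∀ i n, (((U i).coeff n : A) : L) ∈ K) →
      RvIndep (fun i => coeffMap π (U i)) →
      ∀ G : LaurentSeries L, (∀ n, G.coeff n ∈ K) →
        ∃ c : Fin j → L, (∀ i, c i ∈ K) ∧
          ∀ (γ : L) (W : LaurentSeries A), γ ∈ K → (∀ n, ((W.coeff n : A) : L) ∈ K) → γ ≠ 0 →
            G - ∑ i, HahnSeries.C (c i) * rvIota A (U i) = HahnSeries.C γ * rvIota A W →
            ∀ g : Fin j → k, coeffMap π W = ∑ i, HahnSeries.C (g i) * coeffMap π (U i) →
              coeffMap π W = 0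

end Fermat.Agent.H37.FF
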