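/-
P-FF row 620 (FF-G2' UnrLifting), helper37: THE UNRAMIFIED GAUSS NORMAL FORM.

`K = unrField A = ℚ̄^I` (as a subfield of `ℚ̄`).  A function of `F_L` is fixed by inertia iff its
`q`-expansion is `K`-rational; every nonzero such function is `c • ι y₊ / ι y₋` with `c ∈ K` and
`y±` good and `K`-rational (`ratGNF_unr`): fixed-field descent (helper27, row 767) and the Gauss
normal form over the field `K` itself (helper66's `exists_gnf`, valid over every field).
-/
import Mathlib
import Fermat.Agent.H37.FF.RatSemi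
import Fermat.Agent.H27.FF.FixedDescent
import Fermat.Agent.H66.ESD.GaussNorm
import Fermat.Agent.H93.KL.DescInterfaces

set_option autoImplicit false
set_option linter.unusedSectionVars false
set_option linter.style.haveILetI false
set_option synthInstance.maxHeartbeats 400000
set_option maxHeartbeats 1600000

noncomputable section

open ModularCurve AlgebraicCurve

namespace Fermat.Agent.H37.FF

open Fermat.Agent.H18 Fermat.Agent.H72.FF

/-- the fixed field of the inertia group, as a subfield of `ℚ̄` -/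
def unrField (A : ValuationSubring Qb) : Subfield Qb :=
  (IntermediateField.fixedField (A.inertiaSubgroupIn ℚ)).toSubfield

theorem mem_unrField {A : ValuationSubring Qb} {x : Qb} :
    x ∈ unrField A ↔ ∀ σ ∈ A.inertiaSubgroupIn ℚ, σ x = x :=
  IntermediateField.mem_fixedField_iff _ x

theorem mem_unrField_of_mem_unrInt {A : ValuationSubring Qb} {x : Qb} (hx : x ∈ unrInt A) :
    x ∈ unrField A :=
  mem_unrField.mpr hx.2

theorem isRat_unrField_iff {A : ValuationSubring Qb} (y : LaurentSeries Qb) :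
    IsRat (unrField A) y ↔
      ∀ σ ∈ A.inertiaSubgroupIn ℚ, coeffMap ((σ : Qb ≃ₐ[ℚ] Qb) : Qb →+* Qb) y = y := by
  constructor
  · intro h σ hσ
    ext n
    rw [coeffMap_coeff]
    exact mem_unrField.mp (h n) σ hσ
  · intro h n
    rw [mem_unrField]
    intro σ hσ
    have := congrArg (fun s => HahnSeries.coeff s n) (h σ hσ)
    simpa using this

/-- the inclusion of the valuation ring of `K` into `A` -/
def unrIncl (A : ValuationSubring Qb) :
    ↥(A.comap (algebraMap ↥(IntermediateField.fixedField (A.inertiaSubgroupIn ℚ)) Qb)) →+* ↥A where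
  toFun x := ⟨algebraMap ↥(IntermediateField.fixedField (A.inertiaSubgroupIn ℚ)) Qb x.1, x.2⟩
  map_one' := Subtype.ext (map_one _)
  map_mul' x y := Subtype.ext (map_mul _ _ _)
  map_zero' := Subtype.ext (map_zero _)
  map_add' x y := Subtype.ext (map_add _ _ _)

theorem unrIncl_coe (A : ValuationSubring Qb)
    (x : ↥(A.comap (algebraMap ↥(IntermediateField.fixedField (A.inertiaSubgroupIn ℚ)) Qb))) :
    ((unrIncl A x : ↥A) : Qb) = ((x.1 : ↥(IntermediateField.fixedField
      (A.inertiaSubgroupIn ℚ))) : Qb) := rfl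

/-- **The unramified Gauss normal form.** -/
theorem ratGNF_unr (N : ℕ) (A : ValuationSubring Qb)
    (r : Place Qb ↥(rvFL Qb N) → Place (IsLocalRing.ResidueField A)
      ↥(rvFk (IsLocalRing.ResidueField A) N))
    (H : RvHyp A (IsLocalRing.residue A) N r) :
    RatGNF A (IsLocalRing.residue A) N (unrField A) := by
  intro f hf0 hfK
  set K₀ := IntermediateField.fixedField (A.inertiaSubgroupIn ℚ) with hK₀
  set R' : ValuationSubring ↥K₀ := A.comap (algebraMap ↥K₀ Qb) with hR'
  have hfix := (isRat_unrField_iff _).mp hfK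
  obtain ⟨f₁, hf₁, hf₁f⟩ := Fermat.Agent.H27.FF.fixedDescent (modularFunctionFieldFull N)
    (A.inertiaSubgroupIn ℚ) (f : LaurentSeries Qb) f.2 hfix
  have hf₁0 : f₁ ≠ 0 := by
    rintro rfl
    rw [map_zero] at hf₁f
    exact hf0 (Subtype.ext hf₁f.symm)
  obtain ⟨c₁, a₁, b₁, hc₁, ha₁, hb₁, hra, hrb, h⟩ :=
    Fermat.Agent.H66.exists_gnf N R' hf₁ hf₁0
  -- transport to `A`
  have hcomp : (A.subtype : ↥A →+* Qb).comp (unrIncl A) =
      (algebraMap ↥K₀ Qb).comp R'.subtype := RingHom.ext fun _ => rfl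
  have hι : ∀ y : LaurentSeries ↥R', rvIota A (coeffMap (unrIncl A) y) =
      coeffMap (algebraMap ↥K₀ Qb) (Fermat.Agent.H66.vIota R' y) := by
    intro y
    show coeffMap A.subtype (coeffMap (unrIncl A) y) =
      coeffMap (algebraMap ↥K₀ Qb) (coeffMap R'.subtype y)
    rw [coeffMap_coeffMap, coeffMap_coeffMap, hcomp]
  have hmem : ∀ y : LaurentSeries ↥R',
      Fermat.Agent.H66.vIota R' y ∈ laurentBaseChange ↥K₀ (modularFunctionFieldFull N) →
      rvIota A (coeffMap (unrIncl A) y) ∈ rvFL Qb N := by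
    intro y hy
    rw [hι]
    exact Fermat.Agent.H93.KL.coeffMap_mem_laurentBaseChange_bar _ _ hy
  have hrat : ∀ y : LaurentSeries ↥R', IsRat (unrField A) (rvIota A (coeffMap (unrIncl A) y)) := by
    intro y n
    exact ((y.coeff n : ↥R') : ↥K₀).2
  have hred : ∀ y : LaurentSeries ↥R', Fermat.Agent.H66.vRho R' y ≠ 0 →
      rvRho A (IsLocalRing.residue A) (coeffMap (unrIncl A) y) ≠ 0 := by
    intro y hy h0
    apply hy
    ext n
    show IsLocalRing.residue ↥R' (y.coeff n) = 0
    rw [IsLocalRing.residue_eq_zero_iff, IsLocalRing.mem_maximalIdeal, mem_nonunits_iff]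
    intro hu
    have h1 : IsUnit (unrIncl A (y.coeff n)) := hu.map (unrIncl A)
    have h2 := congrArg (fun s => HahnSeries.coeff s n) h0
    simp only [coeffMap_coeff, HahnSeries.coeff_zero] at h2
    exact ((H.hker _).mp h2) h1
  have hgood : ∀ y : LaurentSeries ↥R',
      Fermat.Agent.H66.vIota R' y ∈ laurentBaseChange ↥K₀ (modularFunctionFieldFull N) →
      Fermat.Agent.H66.vRho R' y ≠ 0 →
      RvGood A (IsLocalRing.residue A) N (coeffMap (unrIncl A) y) := by
    intro y hy hy0
    exact ⟨hmem y hy, (H.num_of_iota_mem _ (hmem y hy)).2, hred y hy0⟩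
  refine ⟨algebraMap ↥K₀ Qb c₁, coeffMap (unrIncl A) a₁, coeffMap (unrIncl A) b₁, c₁.2, ?_,
    hrat a₁, hrat b₁, hgood a₁ ha₁ hra, hgood b₁ hb₁ hrb, ?_⟩
  · intro h0
    exact hc₁ ((map_eq_zero _).mp h0)
  · rw [hι, hι, ← hf₁f, ← map_mul, h, map_mul, Fermat.Agent.H27.FF.coeffMap_algebraMap_hom,
      rv_smul_def]

end Fermat.Agent.H37.FF
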