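/-
P-FF row 620 (FF-G2' UnrLifting), helper37: SEMICONTINUITY WITH COEFFICIENTS IN A SUBFIELD.

Setting of helper18's Gauss ring (`Fermat.Agent.H18`): `A ⊆ L` a valuation subring,
`π : A →+* k`, `H : RvHyp A π N r`.  Let `K` be a subfield of `L`.  A Laurent series over `L`
is `K`-rational (`IsRat K`) if its coefficients lie in `K`.

Under the `K`-rational Gauss normal form `RatGNF A π N K` (every nonzero `K`-rational
`f ∈ F_L` is `c • ι y₊ / ι y₋` with `c ∈ K` and `y±` good and `K`-rational) and the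
`K`-rational pivot lemma (`RatPivotStatement`):

* `rat_exists_extend`, `rat_exists_indep_red` : helper18's `RvHyp.exists_extend` and
  `RvHyp.exists_indep_red` with all functions `K`-rational.
-/
import Mathlib
import Fermat.Agent.H18.RedSurj
import Fermat.Agent.H37.FF.UnrLiftDefs

set_option autoImplicit false
set_option linter.unusedSectionVars false
set_option linter.style.haveILetI false
set_option synthInstance.maxHeartbeats 400000
set_option maxHeartbeats 1600000

noncomputable section

open ModularCurve AlgebraicCurve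

namespace Fermat.Agent.H37.FF

open Fermat.Agent.H18

section Rat

variable {L : Type} [Field L] (K : Subfield L)

/-- Laurent series with coefficients in the subfield `K`. -/
def IsRat (y : LaurentSeries L) : Prop := ∀ n, y.coeff n ∈ K

variable {K}

theorem IsRat.exists_eq {y : LaurentSeries L} (h : IsRat K y) :
    ∃ w : LaurentSeries K, coeffMap K.subtype w = y := by
  refine ⟨⟨fun j => ⟨y.coeff j, h j⟩, y.isPWO_support.mono ?_⟩, ?_⟩
  · intro j hj
    simp only [Function.mem_support, ne_eq] at hj ⊢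
    intro h0
    exact hj (Subtype.ext h0)
  · ext j
    rfl

theorem isRat_coeffMap (w : LaurentSeries K) : IsRat K (coeffMap K.subtype w) :=
  fun n => (w.coeff n).2

theorem isRat_iff {y : LaurentSeries L} :
    IsRat K y ↔ ∃ w : LaurentSeries K, coeffMap K.subtype w = y :=
  ⟨fun h => h.exists_eq, fun ⟨w, hw⟩ => hw ▸ isRat_coeffMap w⟩

theorem isRat_zero : IsRat K (0 : LaurentSeries L) := fun _ => by
  rw [HahnSeries.coeff_zero]
  exact K.zero_mem

theorem isRat_one : IsRat K (1 : LaurentSeries L) := by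
  rw [isRat_iff]
  exact ⟨1, map_one _⟩

theorem IsRat.add {x y : LaurentSeries L} (hx : IsRat K x) (hy : IsRat K y) :
    IsRat K (x + y) := fun j => by
  rw [HahnSeries.coeff_add]
  exact K.add_mem (hx j) (hy j)

theorem IsRat.neg {x : LaurentSeries L} (hx : IsRat K x) : IsRat K (-x) := fun j => by
  rw [HahnSeries.coeff_neg]
  exact K.neg_mem (hx j)

theorem IsRat.sub {x y : LaurentSeries L} (hx : IsRat K x) (hy : IsRat K y) :
    IsRat K (x - y) := by
  rw [sub_eq_add_neg]
  exact hx.add hy.neg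

theorem IsRat.mul {x y : LaurentSeries L} (hx : IsRat K x) (hy : IsRat K y) :
    IsRat K (x * y) := by
  obtain ⟨a, rfl⟩ := hx.exists_eq
  obtain ⟨b, rfl⟩ := hy.exists_eq
  rw [← map_mul]
  exact isRat_coeffMap _

theorem IsRat.smul {x : LaurentSeries L} (hx : IsRat K x) {c : L} (hc : c ∈ K) :
    IsRat K (c • x) := fun j => by
  rw [HahnSeries.coeff_smul, smul_eq_mul]
  exact K.mul_mem hc (hx j)

theorem IsRat.C_mul {x : LaurentSeries L} (hx : IsRat K x) {c : L} (hc : c ∈ K) :
    IsRat K (HahnSeries.C c * x) := by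
  rw [HahnSeries.C_mul_eq_smul]
  exact hx.smul hc

theorem isRat_C {c : L} (hc : c ∈ K) : IsRat K (HahnSeries.C c : LaurentSeries L) := by
  have := (isRat_one (K := K)).C_mul hc
  rwa [mul_one] at this

theorem isRat_sum {ι : Type*} (s : Finset ι) (x : ι → LaurentSeries L)
    (h : ∀ i ∈ s, IsRat K (x i)) : IsRat K (∑ i ∈ s, x i) := by
  classical
  induction s using Finset.induction_on with
  | empty => simpa using isRat_zero
  | insert a s ha ih =>
    rw [Finset.sum_insert ha]
    exact (h a (Finset.mem_insert_self a s)).add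
      (ih fun i hi => h i (Finset.mem_insert_of_mem hi))

theorem isRat_prod {ι : Type*} (s : Finset ι) (x : ι → LaurentSeries L)
    (h : ∀ i ∈ s, IsRat K (x i)) : IsRat K (∏ i ∈ s, x i) := by
  classical
  induction s using Finset.induction_on with
  | empty => simpa using isRat_one
  | insert a s ha ih =>
    rw [Finset.prod_insert ha]
    exact (h a (Finset.mem_insert_self a s)).mul
      (ih fun i hi => h i (Finset.mem_insert_of_mem hi))

end Rat

section RatSemi

variable {L : Type} [Field L] [Algebra ℚ L] {A : ValuationSubring L}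
variable {k : Type} [Field k] {π : A →+* k} {N : ℕ}
variable {r : Place L ↥(rvFL L N) → Place k ↥(rvFk k N)}

/-- The `K`-rational Gauss normal form. -/
def RatGNF (A : ValuationSubring L) (π : A →+* k) (N : ℕ) (K : Subfield L) : Prop :=
  ∀ f : ↥(rvFL L N), f ≠ 0 → IsRat K (f : LaurentSeries L) →
    ∃ (c : L) (yp ym : LaurentSeries A), c ∈ K ∧ c ≠ 0 ∧
      IsRat K (rvIota A yp) ∧ IsRat K (rvIota A ym) ∧
      RvGood A π N yp ∧ RvGood A π N ym ∧
      (f : LaurentSeries L) * rvIota A ym = c • rvIota A yp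

variable {K : Subfield L}

theorem rv_not_isUnit_inv {c : L} (hc : c ∉ A) (hci : c⁻¹ ∈ A) :
    ¬ IsUnit (⟨c⁻¹, hci⟩ : A) := by
  intro hu
  obtain ⟨u, hu⟩ := hu
  apply hc
  have hc0 : c ≠ 0 := fun h => hc (h ▸ A.zero_mem)
  have : ((↑u⁻¹ : A) : L) = c := by
    have h1 : (u : A) * (↑u⁻¹ : A) = 1 := Units.mul_inv u
    have h2 := congrArg (Subtype.val) h1
    rw [hu] at h2
    have h3 : c⁻¹ * ((↑u⁻¹ : A) : L) = 1 := h2
    field_simp at h3
    exact h3
  rw [← this]
  exact (↑u⁻¹ : A).2

/-- **Rational representations.** A `K`-rational element of the Gauss ring is a quotient of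
`K`-rational integral series. -/
theorem rat_rep (H : RvHyp A π N r) (hG : RatGNF A π N K) (f : rvRing A π N)
    (hfK : IsRat K ((f : ↥(rvFL L N)) : LaurentSeries L)) :
    ∃ a b : LaurentSeries A, RvRep A π N ((f : ↥(rvFL L N)) : LaurentSeries L) a b ∧
      IsRat K (rvIota A a) ∧ IsRat K (rvIota A b) := by
  by_cases hf : (f : ↥(rvFL L N)) = 0
  · refine ⟨0, 1, ⟨rvGood_one, rvNum_zero, ?_⟩, ?_, ?_⟩
    · rw [hf]
      simp
    · rw [map_zero]
      exact isRat_zero
    · rw [map_one]
      exact isRat_one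
  obtain ⟨c, yp, ym, hcK, hc0, hpK, hmK, hp, hm, h⟩ := hG _ hf hfK
  obtain ⟨a0, b0, h0⟩ := mem_rvRing.mp f.2
  have hcA : c ∈ A := by
    by_contra hc
    have hci : c⁻¹ ∈ A := (A.mem_or_inv_mem c).resolve_left hc
    have hnu : ¬ IsUnit (⟨c⁻¹, hci⟩ : A) := rv_not_isUnit_inv hc hci
    have e : (⟨c⁻¹, hci⟩ : A) • (a0 * ym) = yp * b0 := by
      apply rvIota_injective A
      rw [rvIota_smul, map_mul, map_mul, ← h0.2.2]
      show c⁻¹ • ((f : ↥(rvFL L N)) * rvIota A b0 * rvIota A ym) = rvIota A yp * rvIota A b0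
      have : ((f : ↥(rvFL L N)) : LaurentSeries L) * rvIota A b0 * rvIota A ym
          = (c • rvIota A yp) * rvIota A b0 := by
        rw [← h]
        ring
      rw [this, ← HahnSeries.C_mul_eq_smul, ← HahnSeries.C_mul_eq_smul, ← mul_assoc,
        ← mul_assoc, ← map_mul, inv_mul_cancel₀ hc0, map_one, one_mul]
    apply (hp.mul h0.1).2.2
    rw [← e, rvRho_smul, (H.hker _).mpr hnu, zero_smul]
  refine ⟨(⟨c, hcA⟩ : A) • yp, ym, ⟨hm, hp.num.smul _, ?_⟩, ?_, hmK⟩
  · rw [h, rvIota_smul]
  · rw [rvIota_smul]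
    exact hpK.smul hcK

/-- **Rational normalisation.** Every nonzero `K`-rational `f ∈ F_L` is a constant of `K` times
a `K`-rational unit of the Gauss ring. -/
theorem rat_normalize (hG : RatGNF A π N K) (f : ↥(rvFL L N)) (hf : f ≠ 0)
    (hfK : IsRat K (f : LaurentSeries L)) :
    ∃ (c : L) (u : rvRing A π N), c ∈ K ∧ c ≠ 0 ∧ rvRed A π N u ≠ 0 ∧
      IsRat K ((u : ↥(rvFL L N)) : LaurentSeries L) ∧
      f = algebraMap L ↥(rvFL L N) c * (u : ↥(rvFL L N)) := by
  obtain ⟨c, yp, ym, hcK, hc0, hpK, hmK, hp, hm, h⟩ := hG f hf hfK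
  have hval : ((algebraMap L ↥(rvFL L N) c)⁻¹ * f : ↥(rvFL L N)).1
      = (algebraMap L (LaurentSeries L) c)⁻¹ * (f : LaurentSeries L) := rfl
  have hrep : RvRep A π N (((algebraMap L ↥(rvFL L N) c)⁻¹ * f : ↥(rvFL L N)) :
      LaurentSeries L) yp ym := by
    refine ⟨hm, hp.num, ?_⟩
    show ((algebraMap L ↥(rvFL L N) c)⁻¹ * f : ↥(rvFL L N)).1 * rvIota A ym = rvIota A yp
    rw [hval, mul_assoc, h, rv_smul_def, ← mul_assoc, inv_mul_cancel₀, one_mul]
    exact fun h0 => hc0 ((map_eq_zero _).mp h0)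
  have hmem : (algebraMap L ↥(rvFL L N) c)⁻¹ * f ∈ rvRing A π N := ⟨yp, ym, hrep⟩
  refine ⟨c, ⟨_, hmem⟩, hcK, hc0, ?_, ?_, ?_⟩
  · intro h0
    have hs := rvRed_spec ⟨_, hmem⟩ hrep
    rw [h0] at hs
    simp only [ZeroMemClass.coe_zero, zero_mul] at hs
    exact hp.2.2 hs.symm
  · show IsRat K ((algebraMap L ↥(rvFL L N) c)⁻¹ * f : ↥(rvFL L N)).1
    rw [hval, ← map_inv₀, rv_algebraMap_eq_C]
    exact hfK.C_mul (K.inv_mem hcK)
  · show f = algebraMap L ↥(rvFL L N) c * ((algebraMap L ↥(rvFL L N) c)⁻¹ * f)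
    rw [← mul_assoc, mul_inv_cancel₀, one_mul]
    exact fun h0 => hc0 ((map_eq_zero _).mp h0)

/-- **Extension lemma, `K`-rational form.** -/
theorem rat_exists_extend (hP : RatPivotStatement) (H : RvHyp A π N r) (hArch : RvArch A)
    (hG : RatGNF A π N K) {j : ℕ}
    (w : Fin j → rvRing A π N)
    (hwK : ∀ i, IsRat K (((w i : rvRing A π N) : ↥(rvFL L N)) : LaurentSeries L))
    (hw : LinearIndependent k (fun i => rvRed A π N (w i)))
    (g : ↥(rvFL L N)) (hgK : IsRat K (g : LaurentSeries L))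
    (hg : g ∉ Submodule.span L (Set.range (fun i => ((w i : rvRing A π N) : ↥(rvFL L N))))) :
    ∃ u : rvRing A π N, IsRat K (((u : rvRing A π N) : ↥(rvFL L N)) : LaurentSeries L) ∧
      (u : ↥(rvFL L N)) ∈ Submodule.span L
        (insert g (Set.range (fun i => ((w i : rvRing A π N) : ↥(rvFL L N))))) ∧
      rvRed A π N u ∉ Submodule.span k (Set.range (fun i => rvRed A π N (w i))) := by
  classical
  -- representations
  have hrepw : ∀ i, ∃ a b : LaurentSeries A,
      RvRep A π N (((w i : rvRing A π N) : ↥(rvFL L N)) : LaurentSeries L) a b ∧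
        IsRat K (rvIota A a) ∧ IsRat K (rvIota A b) :=
    fun i => rat_rep H hG (w i) (hwK i)
  choose a b hab haK hbK using hrepw
  have hg0 : g ≠ 0 := fun h => hg (h ▸ Submodule.zero_mem _)
  obtain ⟨cg, ag, bg, hcgK, hcg0, hagK, hbgK, hag, hbg, hgrep⟩ := hG g hg0 hgK
  -- common denominator
  set Y : LaurentSeries A := bg * ∏ i, b i with hY
  have hYgood : RvGood A π N Y := hbg.mul (rvGood_prod _ _ fun i _ => (hab i).1)
  have hYK : IsRat K (rvIota A Y) := by
    rw [hY, map_mul, map_prod]
    exact hbgK.mul (isRat_prod _ _ fun i _ => hbK i)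
  let U : Fin j → LaurentSeries A := fun i => a i * (bg * ∏ i' ∈ Finset.univ.erase i, b i')
  have hUK : ∀ i, IsRat K (rvIota A (U i)) := by
    intro i
    show IsRat K (rvIota A (a i * (bg * ∏ i' ∈ Finset.univ.erase i, b i')))
    rw [map_mul, map_mul, map_prod]
    exact (haK i).mul (hbgK.mul (isRat_prod _ _ fun i' _ => hbK i'))
  have hYi : ∀ i, Y = b i * (bg * ∏ i' ∈ Finset.univ.erase i, b i') := by
    intro i
    rw [hY, ← Finset.mul_prod_erase Finset.univ b (Finset.mem_univ i)]
    ring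
  have hUrep : ∀ i, RvRep A π N (((w i : rvRing A π N) : ↥(rvFL L N)) : LaurentSeries L)
      (U i) Y := by
    intro i
    refine ⟨hYgood, (hab i).2.1.mul (hbg.mul (rvGood_prod _ _ fun i' _ => (hab i').1)).num, ?_⟩
    have e1 : rvIota A Y = rvIota A (b i) *
        rvIota A (bg * ∏ i' ∈ Finset.univ.erase i, b i') := by
      rw [← map_mul, ← hYi i]
    have e2 : rvIota A (U i) = rvIota A (a i) *
        rvIota A (bg * ∏ i' ∈ Finset.univ.erase i, b i') := by
      rw [← map_mul]
    rw [e1, e2, ← mul_assoc, (hab i).2.2]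
  have hρU : ∀ i, coeffMap π (U i) =
      ((rvRed A π N (w i) : ↥(rvFk k N)) : LaurentSeries k) * coeffMap π Y := fun i =>
    (rvRed_spec (w i) (hUrep i)).symm
  have hρY : coeffMap π Y ≠ 0 := hYgood.2.2
  -- independence of the reductions of the `U i`
  have hUind : RvIndep (fun i => coeffMap π (U i)) := by
    intro c hc
    beta_reduce at hc
    simp only [hρU] at hc
    have h1 : (∑ i, HahnSeries.C (c i) *
        ((rvRed A π N (w i) : ↥(rvFk k N)) : LaurentSeries k)) * coeffMap π Y = 0 := by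
      rw [Finset.sum_mul, ← hc]
      refine Finset.sum_congr rfl fun i _ => ?_
      ring
    have h2 : ∑ i, HahnSeries.C (c i) *
        ((rvRed A π N (w i) : ↥(rvFk k N)) : LaurentSeries k) = 0 :=
      (mul_eq_zero.mp h1).resolve_right hρY
    have h3 : ∑ i, c i • rvRed A π N (w i) = 0 := by
      apply Subtype.ext
      rw [rv_coe_sum_smul]
      exact h2
    exact Fintype.linearIndependent_iff.mp hw c h3
  -- the bounded series `G = g * ι Y`
  set Ag : LaurentSeries A := ag * ∏ i, b i with hAg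
  have hGeq : (g : LaurentSeries L) * rvIota A Y = HahnSeries.C cg * rvIota A Ag := by
    rw [hY, hAg, map_mul, map_mul, ← mul_assoc, hgrep, HahnSeries.C_mul_eq_smul,
      ← HahnSeries.C_mul_eq_smul, ← HahnSeries.C_mul_eq_smul]
    ring
  have hGK : IsRat K ((g : LaurentSeries L) * rvIota A Y) := hgK.mul hYK
  obtain ⟨c, hcK, hc⟩ := hP L A k π K H.hker j U (fun i n => hUK i n) hUind
    ((g : LaurentSeries L) * rvIota A Y) hGK
  -- the corrected element
  set g' : ↥(rvFL L N) := g - ∑ i, c i • ((w i : rvRing A π N) : ↥(rvFL L N)) with hg'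
  have hg'0 : g' ≠ 0 := by
    intro h0
    apply hg
    have : g = ∑ i, c i • ((w i : rvRing A π N) : ↥(rvFL L N)) := sub_eq_zero.mp h0
    rw [this]
    exact Submodule.sum_mem _ fun i _ =>
      Submodule.smul_mem _ _ (Submodule.subset_span ⟨i, rfl⟩)
  have hg'val : (g' : LaurentSeries L) = (g : LaurentSeries L) -
      ∑ i, HahnSeries.C (c i) * (((w i : rvRing A π N) : ↥(rvFL L N)) : LaurentSeries L) := by
    rw [hg', AddSubgroupClass.coe_sub, rv_coe_sum_smul]
  have hg'K : IsRat K (g' : LaurentSeries L) := by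
    rw [hg'val]
    exact hgK.sub (isRat_sum _ _ fun i _ => (hwK i).C_mul (hcK i))
  have hg'G : (g' : LaurentSeries L) * rvIota A Y =
      (g : LaurentSeries L) * rvIota A Y - ∑ i, HahnSeries.C (c i) * rvIota A (U i) := by
    rw [hg'val, sub_mul, Finset.sum_mul]
    congr 1
    refine Finset.sum_congr rfl fun i _ => ?_
    rw [mul_assoc, (hUrep i).2.2]
  -- normalise
  obtain ⟨γ, u, hγK, hγ0, hu0, huK, hgu⟩ := rat_normalize hG g' hg'0 hg'K
  -- `u * ι Y` is in the ring, bounded, hence integral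
  have hYmem : (⟨rvIota A Y, hYgood.1⟩ : ↥(rvFL L N)) ∈ rvRing A π N :=
    ⟨Y, 1, hYgood.num.rep_one⟩
  set x : rvRing A π N := u * ⟨_, hYmem⟩ with hx
  have hxval : ((x : ↥(rvFL L N)) : LaurentSeries L) =
      ((u : ↥(rvFL L N)) : LaurentSeries L) * rvIota A Y := rfl
  have hγu : (g' : LaurentSeries L) = HahnSeries.C γ * ((u : ↥(rvFL L N)) : LaurentSeries L) := by
    rw [hgu]
    push_cast
    rw [← rv_algebraMap_eq_C]
  have hxG : HahnSeries.C γ * ((x : ↥(rvFL L N)) : LaurentSeries L) =
      (g : LaurentSeries L) * rvIota A Y - ∑ i, HahnSeries.C (c i) * rvIota A (U i) := by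
    rw [hxval, ← mul_assoc, ← hγu, hg'G]
  have hxbdd : RvBdd A ((x : ↥(rvFL L N)) : LaurentSeries L) := by
    have h1 : ((x : ↥(rvFL L N)) : LaurentSeries L) = HahnSeries.C γ⁻¹ *
        ((g : LaurentSeries L) * rvIota A Y - ∑ i, HahnSeries.C (c i) * rvIota A (U i)) := by
      rw [← hxG, ← mul_assoc, ← map_mul, inv_mul_cancel₀ hγ0, map_one, one_mul]
    rw [h1]
    refine RvBdd.C_mul ?_ _
    refine RvBdd.sub ?_ (rvBdd_sum _ _ fun i _ => (rvBdd_iota _).C_mul _)
    rw [hGeq]
    exact (rvBdd_iota _).C_mul _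
  have hxint : RvIsInt A ((x : ↥(rvFL L N)) : LaurentSeries L) :=
    H.isInt_of_bdd hArch x.2 hxbdd
  obtain ⟨W, hW⟩ := hxint.exists_eq
  have hWK : IsRat K (rvIota A W) := by
    rw [hW, hxval]
    exact huK.mul hYK
  have hWnum : RvNum A π N W := H.num_of_iota_mem W (by rw [hW]; exact (x : ↥(rvFL L N)).2)
  have hredx : ((rvRed A π N x : ↥(rvFk k N)) : LaurentSeries k) = coeffMap π W :=
    rvRed_of_num hWnum x hW.symm
  have hredY : ((rvRed A π N ⟨_, hYmem⟩ : ↥(rvFk k N)) : LaurentSeries k) = coeffMap π Y :=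
    rvRed_of_num hYgood.num ⟨_, hYmem⟩ rfl
  have hredx' : coeffMap π W =
      ((rvRed A π N u : ↥(rvFk k N)) : LaurentSeries k) * coeffMap π Y := by
    rw [← hredx, hx, map_mul]
    push_cast
    rw [hredY]
  have hW0 : coeffMap π W ≠ 0 := by
    rw [hredx']
    exact mul_ne_zero (fun h0 => hu0 (Subtype.ext h0)) hρY
  refine ⟨u, huK, ?_, ?_⟩
  · -- membership in the span
    have hu_eq : (u : ↥(rvFL L N)) = γ⁻¹ • g' := by
      rw [hgu, Algebra.smul_def, ← mul_assoc, ← map_mul, inv_mul_cancel₀ hγ0, map_one, one_mul]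
    rw [hu_eq]
    refine Submodule.smul_mem _ _ (Submodule.sub_mem _ (Submodule.subset_span
      (Set.mem_insert _ _)) (Submodule.sum_mem _ fun i _ => Submodule.smul_mem _ _
        (Submodule.subset_span (Set.mem_insert_of_mem _ ⟨i, rfl⟩))))
  · -- the reduction is not in the span
    intro hmem
    obtain ⟨lam, hlam⟩ : ∃ lam : Fin j → k, ∑ i, lam i • rvRed A π N (w i) = rvRed A π N u :=
      (Submodule.mem_span_range_iff_exists_fun k).mp hmem
    apply hW0
    refine hc γ W hγK (fun n => hWK n) hγ0 ?_ lam ?_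
    · rw [← hxG, hW]
    · rw [hredx', ← hlam, rv_coe_sum_smul, Finset.sum_mul]
      refine Finset.sum_congr rfl fun i _ => ?_
      rw [hρU i]
      ring

/-- **Semicontinuity, `K`-rational form.** A subspace of `F_L` containing `n` linearly
independent `K`-rational elements contains `n` `K`-rational elements of the Gauss valuation ring
whose reductions are linearly independent. -/
theorem rat_exists_indep_red (hP : RatPivotStatement) (H : RvHyp A π N r) (hArch : RvArch A)
    (hG : RatGNF A π N K)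
    (V : Submodule L ↥(rvFL L N)) {n : ℕ} (f : Fin n → ↥(rvFL L N)) (hfV : ∀ i, f i ∈ V)
    (hfK : ∀ i, IsRat K (f i : LaurentSeries L))
    (hf : LinearIndependent L f) :
    ∃ w : Fin n → rvRing A π N, (∀ i, ((w i : rvRing A π N) : ↥(rvFL L N)) ∈ V) ∧
      (∀ i, IsRat K (((w i : rvRing A π N) : ↥(rvFL L N)) : LaurentSeries L)) ∧
      LinearIndependent k (fun i => rvRed A π N (w i)) := by
  classical
  suffices h : ∀ m, m ≤ n → ∃ w : Fin m → rvRing A π N,
      (∀ i, ((w i : rvRing A π N) : ↥(rvFL L N)) ∈ V) ∧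
        (∀ i, IsRat K (((w i : rvRing A π N) : ↥(rvFL L N)) : LaurentSeries L)) ∧
        LinearIndependent k (fun i => rvRed A π N (w i)) from h n le_rfl
  intro m
  induction m with
  | zero =>
    intro _
    exact ⟨Fin.elim0, fun i => i.elim0, fun i => i.elim0, linearIndependent_empty_type⟩
  | succ m ih =>
    intro hm
    obtain ⟨w, hwV, hwK, hw⟩ := ih (Nat.le_of_succ_le hm)
    -- some `f i` is outside the span of the `w`
    obtain ⟨i₀, hi₀⟩ : ∃ i₀, f i₀ ∉
        Submodule.span L (Set.range (fun i => ((w i : rvRing A π N) : ↥(rvFL L N)))) := by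
      by_contra hcon
      push Not at hcon
      have hle : Submodule.span L (Set.range f) ≤
          Submodule.span L (Set.range (fun i => ((w i : rvRing A π N) : ↥(rvFL L N)))) :=
        Submodule.span_le.mpr (by rintro _ ⟨i, rfl⟩; exact hcon i)
      have h1 : Module.finrank L (Submodule.span L (Set.range f)) = n := by
        rw [finrank_span_eq_card hf, Fintype.card_fin]
      have h2 : Module.finrank L (Submodule.span L
          (Set.range (fun i => ((w i : rvRing A π N) : ↥(rvFL L N))))) ≤ m := by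
        have := finrank_range_le_card (R := L)
          (fun i => ((w i : rvRing A π N) : ↥(rvFL L N)))
        rw [Fintype.card_fin] at this
        exact this
      haveI : Module.Finite L (Submodule.span L
          (Set.range (fun i => ((w i : rvRing A π N) : ↥(rvFL L N))))) :=
        FiniteDimensional.span_of_finite L (Set.finite_range _)
      have h3 := Submodule.finrank_mono hle
      omega
    obtain ⟨u, huK, huV, hu⟩ := rat_exists_extend hP H hArch hG w hwK hw (f i₀) (hfK i₀) hi₀
    refine ⟨Fin.cons u w, ?_, ?_, ?_⟩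
    · intro i
      refine Fin.cases ?_ (fun i => ?_) i
      · rw [Fin.cons_zero]
        refine (Submodule.span_le.mpr ?_) huV
        rintro _ (rfl | ⟨i, rfl⟩)
        · exact hfV i₀
        · exact hwV i
      · rw [Fin.cons_succ]
        exact hwV i
    · intro i
      refine Fin.cases ?_ (fun i => ?_) i
      · rw [Fin.cons_zero]
        exact huK
      · rw [Fin.cons_succ]
        exact hwK i
    · have : (fun i => rvRed A π N ((Fin.cons u w : Fin (m + 1) → rvRing A π N) i))
          = Fin.cons (rvRed A π N u) (fun i => rvRed A π N (w i)) := by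
        funext i
        refine Fin.cases ?_ (fun i => ?_) i
        · simp
        · simp
      rw [this]
      exact (linearIndependent_finCons).mpr ⟨hw, hu⟩

end RatSemi

end Fermat.Agent.H37.FF
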