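/-
P-FF row 620 (FF-G2'), helper37: **UNRAMIFIED LIFTING OF RIEMANN-ROCH SPACES**.

`unrLifting : Fermat.Agent.H72.FF.UnrLiftingStatement` (unconditional): under `GeoSetup`, for a
place `P` of `F_L` fixed by inertia and `n` large, every element of `L_k(n r(P))` is the
reduction of an inertia-fixed element of `O ∩ L_L(n P)`.

Proof: `K = ℚ̄^I`.  (1) `L_L(n P)` is stable under `I`, hence has a `K`-rational basis (echelon
lemma on `q`-expansion coefficients + uniqueness).  (2) `K`-rational semicontinuity
(`rat_exists_indep_red`: helper18's Gaussian elimination with all constants in `K`, using the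
unramified Gauss normal form `ratGNF_unr` and helper19's `ratPivot`) gives a `K`-rational family
in `O ∩ L_L(n P)` with linearly independent reductions.  (3) Both Riemann-Roch spaces have
dimension `n + 1 - g`, so the reductions span; lift the coefficients to `R = A ∩ K`
(helper19's `unrResidueSurj`).
-/
import Mathlib
import Fermat.Agent.H72.FF.GeoBlocks
import Fermat.Agent.H18.RedInst
import Fermat.Agent.H37.FF.Echelon
import Fermat.Agent.H37.FF.UnrGNF
import Fermat.Agent.H19.FF.RatPivot
import Fermat.Agent.H19.FF.UnrResidueSurj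

set_option autoImplicit false
set_option linter.unusedSectionVars false
set_option linter.style.haveILetI false
set_option synthInstance.maxHeartbeats 400000
set_option maxHeartbeats 1600000

noncomputable section

open ModularCurve AlgebraicCurve

namespace Fermat.Agent.H37.FF

open Fermat.Agent.H18 Fermat.Agent.H72.FF Fermat.Agent.H27.ESD Fermat.Agent.H10.FF

/-- inertia-fixed functions are the functions with `K`-rational `q`-expansion -/
theorem isUnrFn_iff_isRat (A : ValuationSubring Qb) (N : ℕ) (y : FLb N) :
    IsUnrFn A N y ↔ IsRat (unrField A) (y : LaurentSeries Qb) := by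
  rw [isRat_unrField_iff]
  constructor
  · intro h σ hσ
    exact congrArg Subtype.val (h σ hσ)
  · intro h σ hσ
    exact Subtype.ext (h σ hσ)

/-- the `q`-expansion coefficients as linear functionals on `F_L` -/
def coeffLin (N : ℕ) (n : ℤ) : FLb N →ₗ[Qb] Qb where
  toFun f := (f : LaurentSeries Qb).coeff n
  map_add' f g := by
    show ((f + g : FLb N) : LaurentSeries Qb).coeff n = _
    rw [AddMemClass.coe_add, HahnSeries.coeff_add]
  map_smul' c f := by
    show ((c • f : FLb N) : LaurentSeries Qb).coeff n = c • (f : LaurentSeries Qb).coeff n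
    rw [rv_coe_smul, rv_coeff_C_mul, smul_eq_mul]

theorem coeffLin_apply (N : ℕ) (n : ℤ) (f : FLb N) :
    coeffLin N n f = (f : LaurentSeries Qb).coeff n := rfl

theorem coeffLin_injective (N : ℕ) (f : FLb N) (h : ∀ n, coeffLin N n f = 0) : f = 0 := by
  apply Subtype.ext
  ext n
  exact h n

/-- Riemann-Roch spaces of multiples of a fixed place are stable. -/
theorem smul_mem_rr_of_fixed (N : ℕ) (σ : GQ) (P : Place Qb (FLb N))
    (hP : galF N σ • P = P) (n : ℤ) (f : FLb N)
    (hf : f ∈ riemannRochSpace (Finsupp.single P n)) :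
    galF N σ • f ∈ riemannRochSpace (Finsupp.single P n) := by
  classical
  rw [mem_riemannRochSpace_iff] at hf ⊢
  intro v
  rcases hf ((galF N σ)⁻¹ • v) with h | h
  · left
    rw [h, smul_zero]
  · right
    have h1 : v.ord (galF N σ • f) = ((galF N σ)⁻¹ • v).ord f := by
      have := SemilinearAut.ord_smul (galF N σ) ((galF N σ)⁻¹ • v) f
      rwa [smul_inv_smul] at this
    have h2 : (Finsupp.single P n) ((galF N σ)⁻¹ • v) = (Finsupp.single P n) v := by
      have hP' : (galF N σ)⁻¹ • P = P := by
        conv_lhs => rw [← hP]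
        exact inv_smul_smul _ _
      by_cases hv : v = P
      · rw [hv, hP']
      · have hv' : (galF N σ)⁻¹ • v ≠ P := by
          intro h'
          apply hv
          have := congrArg (fun Q => galF N σ • Q) h'
          simp only [smul_inv_smul] at this
          rw [this, hP]
        rw [Finsupp.single_apply, Finsupp.single_apply, if_neg (Ne.symm hv'),
          if_neg (Ne.symm hv)]
    rw [h1, ← h2]
    exact h

/-- **FF-G2' (unramified lifting)**, unconditionally. -/
theorem unrLifting : UnrLiftingStatement := by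
  classical
  intro N ℓ A r g hS P hP
  have H := hS.rv
  have hArch : RvArch A := rvArch_algebraicClosure A hS.prime hS.liesOver
  have hG := ratGNF_unr N A r H
  obtain ⟨cL, hcL⟩ := hS.pkgL.eq_of_large
  obtain ⟨ck, hck⟩ := hS.pkgk.eq_of_large
  refine ⟨(max cL ck).toNat, fun n hn x hx => ?_⟩
  have hn' : max cL ck ≤ (n : ℤ) := by
    have := Int.toNat_le.mp hn
    exact this
  have hn1 : cL ≤ (n : ℤ) := le_trans (le_max_left _ _) hn'
  have hn2 : ck ≤ (n : ℤ) := le_trans (le_max_right _ _) hn'
  set D : Divisor Qb (FLb N) := Finsupp.single P (n : ℤ) with hD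
  have hmap : Finsupp.mapDomain r D = Finsupp.single (r P) (n : ℤ) := Finsupp.mapDomain_single
  have hdeg : Divisor.degree D = n := by
    rw [hD, Divisor.degree_single, hS.pkgL.deg_one, Nat.cast_one, mul_one]
  have hdeg' : Divisor.degree (Finsupp.single (r P) (n : ℤ)) = n := by
    rw [Divisor.degree_single, hS.pkgk.deg_one, Nat.cast_one, mul_one]
  have e1 := hcL D (by rw [hdeg]; exact hn1)
  have e2 := hck (Finsupp.single (r P) (n : ℤ)) (by rw [hdeg']; exact hn2)
  rw [hdeg] at e1
  rw [hdeg'] at e2
  haveI := hS.pkgL.finite D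
  haveI := hS.pkgk.finite (Finsupp.single (r P) (n : ℤ))
  -- (1) a `K`-rational basis of `L_L(n P)`
  obtain ⟨S, e, heV, hδ, huniq⟩ :=
    exists_echelon (coeffLin N) (coeffLin_injective N) (riemannRochSpace D)
  have hcard := echelon_card (coeffLin N) (riemannRochSpace D) S e heV hδ huniq
  have hli := echelon_linearIndependent (coeffLin N) S e hδ
  have hefix : ∀ j ∈ S, IsUnrFn A N (e j) := by
    intro j hj σ hσ
    have h1 : galF N σ • e j ∈ riemannRochSpace D :=
      smul_mem_rr_of_fixed N σ P (hP σ hσ) n (e j) (heV j hj)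
    have h2 : galF N σ • e j - e j = 0 := by
      refine huniq _ (Submodule.sub_mem _ h1 (heV j hj)) fun i hi => ?_
      rw [map_sub, coeffLin_apply, coeffLin_apply, coe_arithmeticGalois_smul, coeffMap_coeff]
      have h3 := hδ i hi j hj
      rw [coeffLin_apply] at h3
      rw [h3]
      split_ifs
      · rw [map_one, sub_self]
      · rw [map_zero, sub_self]
    exact sub_eq_zero.mp h2
  let f : Fin S.card → FLb N := fun i => e ((S.equivFin.symm i : S) : ℤ)
  have hfV : ∀ i, f i ∈ riemannRochSpace D := fun i => heV _ (S.equivFin.symm i).2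
  have hfK : ∀ i, IsRat (unrField A) (f i : LaurentSeries Qb) := fun i =>
    (isUnrFn_iff_isRat A N _).mp (hefix _ (S.equivFin.symm i).2)
  have hfli : LinearIndependent Qb f := hli.comp _ S.equivFin.symm.injective
  -- (2) `K`-rational semicontinuity
  obtain ⟨w, hwV, hwK, hw⟩ := rat_exists_indep_red Fermat.Agent.H19.FF.ratPivot H hArch hG
    (riemannRochSpace D) f hfV hfK hfli
  have hwk : ∀ i, rvRed A (IsLocalRing.residue A) N (w i) ∈
      riemannRochSpace (Finsupp.single (r P) (n : ℤ)) := by
    intro i
    have := H.red_mem_riemannRochSpace D (w i) (hwV i)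
    rwa [hmap] at this
  -- (3) dimension count
  let w' : Fin S.card → riemannRochSpace (Finsupp.single (r P) (n : ℤ)) :=
    fun i => ⟨rvRed A (IsLocalRing.residue A) N (w i), hwk i⟩
  have hw' : LinearIndependent (kRes A) w' := by
    refine LinearIndependent.of_comp (riemannRochSpace (Finsupp.single (r P) (n : ℤ))).subtype ?_
    exact hw
  have hcardk : Fintype.card (Fin S.card) =
      Module.finrank (kRes A) (riemannRochSpace (Finsupp.single (r P) (n : ℤ))) := by
    rw [Fintype.card_fin, hcard]
    have : (Module.finrank Qb (riemannRochSpace D) : ℤ) =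
        Module.finrank (kRes A) (riemannRochSpace (Finsupp.single (r P) (n : ℤ))) := by
      rw [e1, e2]
    exact_mod_cast this
  have hspan := hw'.span_eq_top_of_card_eq_finrank' hcardk
  have hxmem : (⟨x, hx⟩ : riemannRochSpace (Finsupp.single (r P) (n : ℤ))) ∈
      Submodule.span (kRes A) (Set.range w') := by
    rw [hspan]
    exact Submodule.mem_top
  obtain ⟨lam, hlam⟩ := (Submodule.mem_span_range_iff_exists_fun (kRes A)).mp hxmem
  choose c hcR hc using fun i =>
    Fermat.Agent.H19.FF.unrResidueSurj ℓ A hS.prime hS.liesOver (lam i)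
  let u : gaussRing A N :=
    ∑ i, ⟨algebraMap Qb ↥(rvFL Qb N) (c i : Qb), rv_algebraMap_mem_rvRing (c i)⟩ * w i
  have hu : (u : FLb N) = ∑ i, (c i : Qb) • ((w i : gaussRing A N) : FLb N) := by
    show ((∑ i, ⟨algebraMap Qb ↥(rvFL Qb N) (c i : Qb), rv_algebraMap_mem_rvRing (c i)⟩ * w i :
      gaussRing A N) : FLb N) = _
    rw [AddSubmonoidClass.coe_finsetSum]
    refine Finset.sum_congr rfl fun i _ => ?_
    rw [Algebra.smul_def]
    rfl
  refine ⟨u, ?_, ?_, ?_⟩
  · rw [isUnrFn_iff_isRat, hu, rv_coe_sum_smul]
    exact isRat_sum _ _ fun i _ => (hwK i).C_mul (mem_unrField_of_mem_unrInt (hcR i))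
  · rw [hu]
    exact Submodule.sum_mem _ fun i _ => Submodule.smul_mem _ _ (hwV i)
  · have h1 : gaussRed A N u = ∑ i, lam i • rvRed A (IsLocalRing.residue A) N (w i) := by
      show rvRed A (IsLocalRing.residue A) N (∑ i, ⟨algebraMap Qb ↥(rvFL Qb N) (c i : Qb),
        rv_algebraMap_mem_rvRing (c i)⟩ * w i) = _
      rw [map_sum]
      refine Finset.sum_congr rfl fun i _ => ?_
      rw [map_mul, rvRed_algebraMap, hc i, Algebra.smul_def]
    rw [h1]
    have h2 : ((∑ i, lam i • w' i : riemannRochSpace (Finsupp.single (r P) (n : ℤ))) :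
        Fkb A N) = x := congrArg Subtype.val hlam
    rw [← h2, AddSubmonoidClass.coe_finsetSum]
    rfl

end Fermat.Agent.H37.FF
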